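/-
Fermat/Agent/MAZ/Gm5/Defs.lean  (helper5)

Programme MAZ (S15): **the Eisenstein part `G_k = J₀(p)[r^k]_m` of the torsion of `J₀(p)(ℚ̄)`** —
DEFINITIONS ONLY (Prelude imports only, so that every MAZ brick can import this file cheaply).

* `etaBar p q = T_q - (1 + q) ∈ End_ℤ (JZero p)`;
* `heckeRing p S = T' p S` : the subring of `End_ℤ (JZero p)` generated by the `T_q`, `q ∉ S`
  (report 959);
* `Gm p r S k : AddSubgroup (JZero p)` : the points `y` with `r ^ k • y = 0` on which every `η_q`,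
  `q ∉ S`, is nilpotent (report 976 §3).
-/
import Mathlib
import Fermat.Prelude.Def_ModularCurve_HeckeModule
import Fermat.Prelude.Def_ModularCurve_ArithmeticGalois

set_option autoImplicit false

open ModularCurve

namespace Fermat.Agent.MAZ.Gm5

variable (p : ℕ) [NeZero p]

/-- `η_q = T_q - (1 + q)`. -/
noncomputable def etaBar (q : Nat.Primes) : Module.End ℤ (JZero p) :=
  heckeOperatorBar p q - ((1 + (q : ℕ) : ℕ) : Module.End ℤ (JZero p))

theorem etaBar_apply (q : Nat.Primes) (y : JZero p) :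
    etaBar p q y = heckeOperatorBar p q y - (1 + (q : ℕ)) • y := by
  unfold etaBar
  rw [LinearMap.sub_apply, Module.End.natCast_apply]

/-- The Hecke ring `T' p S`, generated by the `T_q` for the primes `q ∉ S`. -/
noncomputable def heckeRing (S : Finset ℕ) : Subring (Module.End ℤ (JZero p)) :=
  Subring.closure {T | ∃ q : Nat.Primes, (q : ℕ) ∉ S ∧ T = heckeOperatorBar p q}

theorem heckeOperatorBar_mem_heckeRing {S : Finset ℕ} {q : Nat.Primes} (hq : (q : ℕ) ∉ S) :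
    heckeOperatorBar p q ∈ heckeRing p S :=
  Subring.subset_closure ⟨q, hq, rfl⟩

theorem etaBar_mem_heckeRing {S : Finset ℕ} {q : Nat.Primes} (hq : (q : ℕ) ∉ S) :
    etaBar p q ∈ heckeRing p S :=
  Subring.sub_mem _ (heckeOperatorBar_mem_heckeRing p hq) (natCast_mem _ _)

/-- **The Eisenstein part of the `r ^ k`-torsion**: `G_k = J₀(p)[r ^ k]_m`, `m = (r, η_q : q ∉ S)`. -/
noncomputable def Gm (r : ℕ) (S : Finset ℕ) (k : ℕ) : AddSubgroup (JZero p) where
  carrier := {y | r ^ k • y = 0 ∧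
    ∀ q : Nat.Primes, (q : ℕ) ∉ S → ∃ n : ℕ, (etaBar p q ^ n) y = 0}
  zero_mem' := ⟨smul_zero _, fun _ _ => ⟨0, map_zero _⟩⟩
  add_mem' := by
    rintro y z ⟨hy, hy'⟩ ⟨hz, hz'⟩
    refine ⟨by rw [nsmul_add, hy, hz, add_zero], fun q hq => ?_⟩
    obtain ⟨n, hn⟩ := hy' q hq
    obtain ⟨m, hm⟩ := hz' q hq
    refine ⟨n + m, ?_⟩
    rw [map_add]
    have h1 : (etaBar p q ^ (n + m)) y = 0 := by
      rw [add_comm n m, pow_add, Module.End.mul_apply, hn, map_zero]
    have h2 : (etaBar p q ^ (n + m)) z = 0 := by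
      rw [pow_add, Module.End.mul_apply, hm, map_zero]
    rw [h1, h2, add_zero]
  neg_mem' := by
    rintro y ⟨hy, hy'⟩
    refine ⟨by rw [neg_nsmul, hy, neg_zero], fun q hq => ?_⟩
    obtain ⟨n, hn⟩ := hy' q hq
    exact ⟨n, by rw [map_neg, hn, neg_zero]⟩

variable {p}

theorem mem_Gm_iff {r : ℕ} {S : Finset ℕ} {k : ℕ} {y : JZero p} :
    y ∈ Gm p r S k ↔ r ^ k • y = 0 ∧
      ∀ q : Nat.Primes, (q : ℕ) ∉ S → ∃ n : ℕ, (etaBar p q ^ n) y = 0 := Iff.rfl

theorem Gm_mono {r : ℕ} {S : Finset ℕ} {k k' : ℕ} (h : k ≤ k') : Gm p r S k ≤ Gm p r S k' := by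
  rintro y ⟨hy, hy'⟩
  refine ⟨?_, hy'⟩
  obtain ⟨j, rfl⟩ := Nat.exists_eq_add_of_le h
  rw [pow_add, mul_comm, mul_nsmul', hy, nsmul_zero]

end Fermat.Agent.MAZ.Gm5
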