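/-
Fermat/Agent/MAZ/Gm5/Stable.lean  (helper5)

Programme MAZ (S15): **the Eisenstein part `G_k = J₀(p)[r^k]_m` as a `Γ`- and `T'`-module.**

`p` prime, `p ∈ S`; `Γ = Gal(ℚ̄/ℚ)`, `T' = heckeRing p S`.
* `heckeRing_apply_smul` : every `a ∈ T'` commutes with `Γ` (`HeckeGalois12`);
* `heckeRing_mul_comm`, `heckeCommRing` : `T'` is commutative (F-COMM, `Comm61`);
* `gmStable p r S k : StableSub Γ (JZero p)` : `G_k` is `Γ`-stable; `GmMod p r S k` is its carrier
  with the `Γ`-module structure of `SelCoh42`;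
* `GmMod` is a `T'`-module (`gmModule`), the two actions commute (`gm_smul_comm`);
* `etaGen p S` : the family `η_q`, `q ∉ S`, in `T'`; `nilPart_gm_eq_top` : `G_k` is `m`-primary,
  i.e. `Alg5.nilPart (Alg5.gen r (etaGen p S)) (GmMod p r S k) = ⊤`.
-/
import Mathlib
import Fermat.Agent.MAZ.Gm5.Defs
import Fermat.Agent.ES.HECKE.HeckeGalois12
import Fermat.Agent.MAZ.Comm61.Main
import Fermat.Agent.MAZ.SelCoh42.Simple
import Fermat.Agent.MAZ.Alg5.Nakayama

set_option autoImplicit false
set_option linter.unusedSectionVars false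
set_option linter.style.haveILetI false
set_option linter.unusedVariables false

open ModularCurve

namespace Fermat.Agent.MAZ.Gm5

open Fermat.Agent.MAZ.SelCoh42 Fermat.Agent.MAZ.Alg5

local notation "Γ" => (AlgebraicClosure ℚ ≃ₐ[ℚ] AlgebraicClosure ℚ)

variable (p : ℕ) [NeZero p]

/-! ### The Hecke ring commutes with Galois and is commutative -/

/-- Every element of the Hecke ring commutes with the Galois action. -/
theorem heckeRing_apply_smul {S : Finset ℕ} {a : Module.End ℤ (JZero p)} (ha : a ∈ heckeRing p S)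
    (σ : Γ) (x : JZero p) : a (σ • x) = σ • a x := by
  refine Subring.closure_induction (p := fun a _ => ∀ x : JZero p, a (σ • x) = σ • a x)
    ?_ ?_ ?_ ?_ ?_ ?_ ha x
  · rintro a ⟨q, _, rfl⟩ x
    exact Fermat.Agent.ES.HECKE.HeckeGalois12.heckeOperatorBar_smul p q σ x
  · intro x
    rw [LinearMap.zero_apply, LinearMap.zero_apply, smul_zero]
  · intro x
    rw [Module.End.one_apply, Module.End.one_apply]
  · intro a b _ _ h1 h2 x
    rw [LinearMap.add_apply, LinearMap.add_apply, h1, h2, smul_add]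
  · intro a _ h x
    rw [LinearMap.neg_apply, LinearMap.neg_apply, h, smul_neg]
  · intro a b _ _ h1 h2 x
    rw [Module.End.mul_apply, Module.End.mul_apply, h2, h1]

theorem etaBar_smul (q : Nat.Primes) (σ : Γ) (x : JZero p) :
    etaBar p q (σ • x) = σ • etaBar p q x := by
  rw [etaBar_apply, etaBar_apply, smul_sub,
    Fermat.Agent.ES.HECKE.HeckeGalois12.heckeOperatorBar_smul]
  congr 1
  exact (map_nsmul (DistribSMul.toAddMonoidHom (JZero p) σ) _ x).symm

theorem etaBar_pow_smul (q : Nat.Primes) (n : ℕ) (σ : Γ) (x : JZero p) :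
    (etaBar p q ^ n) (σ • x) = σ • (etaBar p q ^ n) x := by
  induction n generalizing x with
  | zero => simp
  | succ n ih => rw [pow_succ, Module.End.mul_apply, Module.End.mul_apply, etaBar_smul, ih]

/-- The generators of the Hecke ring commute (F-COMM). -/
theorem heckeRing_gen_comm (hp : p.Prime) {S : Finset ℕ} (hpS : p ∈ S) :
    ∀ a ∈ {T : Module.End ℤ (JZero p) | ∃ q : Nat.Primes, (q : ℕ) ∉ S ∧ T = heckeOperatorBar p q},
    ∀ b ∈ {T : Module.End ℤ (JZero p) | ∃ q : Nat.Primes, (q : ℕ) ∉ S ∧ T = heckeOperatorBar p q},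
      a * b = b * a := by
  rintro _ ⟨q, hq, rfl⟩ _ ⟨q', hq', rfl⟩
  have hnd : ∀ q : Nat.Primes, (q : ℕ) ∉ S → ¬ (q : ℕ) ∣ p := by
    intro q hq hdvd
    rcases (Nat.dvd_prime hp).1 hdvd with h | h
    · exact q.2.one_lt.ne' h
    · exact hq (h ▸ hpS)
  exact Fermat.Agent.MAZ.Comm61.Main.heckeOperatorBar_mul_comm p q q' (hnd q hq) (hnd q' hq')

/-- **The Hecke ring is commutative.** -/
theorem heckeRing_mul_comm (hp : p.Prime) {S : Finset ℕ} (hpS : p ∈ S)
    {a b : Module.End ℤ (JZero p)} (ha : a ∈ heckeRing p S) (hb : b ∈ heckeRing p S) :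
    a * b = b * a := by
  have hc := Subring.isMulCommutative_closure (heckeRing_gen_comm p hp hpS)
  have h := hc.is_comm.comm (⟨a, ha⟩ : Subring.closure
    {T : Module.End ℤ (JZero p) | ∃ q : Nat.Primes, (q : ℕ) ∉ S ∧ T = heckeOperatorBar p q})
    ⟨b, hb⟩
  exact congrArg Subtype.val h

section Facts

variable {S : Finset ℕ} [hp : Fact p.Prime] [hpS : Fact (p ∈ S)]

/-- The commutative ring structure on the Hecke ring. -/
noncomputable instance heckeCommRing : CommRing (heckeRing p S) :=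
  { (heckeRing p S).toRing with
    mul_comm := fun a b => Subtype.ext (heckeRing_mul_comm p hp.out hpS.out a.2 b.2) }

end Facts

/-! ### `G_k` as a `Γ`-module -/

/-- `G_k` is `Γ`-stable. -/
noncomputable def gmStable (r : ℕ) (S : Finset ℕ) (k : ℕ) : StableSub Γ (JZero p) where
  W := Gm p r S k
  stable := by
    intro σ y hy0
    obtain ⟨hy, hy'⟩ := mem_Gm_iff.1 hy0
    refine mem_Gm_iff.2 ⟨?_, fun q hq => ?_⟩
    · have h1 : σ • (r ^ k • y) = r ^ k • (σ • y) :=
        map_nsmul (DistribSMul.toAddMonoidHom (JZero p) σ) (r ^ k) y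
      rw [← h1, hy]
      exact smul_zero (A := JZero p) σ
    · obtain ⟨n, hn⟩ := hy' q hq
      refine ⟨n, ?_⟩
      rw [etaBar_pow_smul, hn]
      exact smul_zero (A := JZero p) σ

/-- The carrier of `G_k`, with the `Γ`-module structure of `SelCoh42` (`StableSub.instSub`). -/
abbrev GmMod (r : ℕ) (S : Finset ℕ) (k : ℕ) : Type := (gmStable p r S k).W

variable {p}

theorem coe_mem_Gm {r : ℕ} {S : Finset ℕ} {k : ℕ} (x : GmMod p r S k) :
    (x : JZero p) ∈ Gm p r S k := x.2

@[simp] theorem coe_galois_smul {r : ℕ} {S : Finset ℕ} {k : ℕ} (σ : Γ) (x : GmMod p r S k) :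
    ((σ • x : GmMod p r S k) : JZero p) = σ • (x : JZero p) := rfl

/-! ### `G_k` as a `T'`-module -/

section Module

variable {S : Finset ℕ} [hp : Fact p.Prime] [hpS : Fact (p ∈ S)] {r k : ℕ}

/-- `G_k` is stable under the Hecke ring. -/
theorem apply_mem_Gm {a : Module.End ℤ (JZero p)} (ha : a ∈ heckeRing p S) {y : JZero p}
    (hy : y ∈ Gm p r S k) : a y ∈ Gm p r S k := by
  obtain ⟨hy1, hy2⟩ := mem_Gm_iff.1 hy
  have h0 : a (r ^ k • y) = r ^ k • a y := map_nsmul a _ _
  refine mem_Gm_iff.2 ⟨by rw [← h0, hy1, map_zero], fun q hq => ?_⟩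
  obtain ⟨n, hn⟩ := hy2 q hq
  refine ⟨n, ?_⟩
  have hcomm : etaBar p q ^ n * a = a * etaBar p q ^ n :=
    heckeRing_mul_comm p hp.out hpS.out
      (pow_mem (etaBar_mem_heckeRing p hq) n) ha
  have : (etaBar p q ^ n) (a y) = (etaBar p q ^ n * a) y := rfl
  rw [this, hcomm, Module.End.mul_apply, hn, map_zero]

/-- The `T'`-module structure on `G_k`. -/
noncomputable instance gmModule : Module (heckeRing p S) (GmMod p r S k) where
  smul a x := ⟨a.1 x.1, apply_mem_Gm a.2 x.2⟩
  one_smul x := Subtype.ext rfl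
  mul_smul a b x := Subtype.ext rfl
  smul_zero a := Subtype.ext (map_zero a.1)
  smul_add a x y := Subtype.ext (map_add a.1 x.1 y.1)
  add_smul a b x := Subtype.ext rfl
  zero_smul x := Subtype.ext rfl

@[simp] theorem coe_hecke_smul (a : heckeRing p S) (x : GmMod p r S k) :
    ((a • x : GmMod p r S k) : JZero p) = a.1 (x : JZero p) := rfl

/-- The actions of `Γ` and of `T'` on `G_k` commute. -/
theorem gm_smul_comm (a : heckeRing p S) (σ : Γ) (x : GmMod p r S k) :
    σ • a • x = a • σ • x :=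
  Subtype.ext (heckeRing_apply_smul p a.2 σ x.1).symm

variable (p S) in
/-- The family `η_q`, `q ∉ S`, in the Hecke ring. -/
noncomputable def etaGen : {q : Nat.Primes // (q : ℕ) ∉ S} → heckeRing p S :=
  fun q => ⟨etaBar p q.1, etaBar_mem_heckeRing p q.2⟩

theorem coe_pow_smul (a : heckeRing p S) (n : ℕ) (x : GmMod p r S k) :
    ((a ^ n • x : GmMod p r S k) : JZero p) = (a.1 ^ n) (x : JZero p) := by
  rw [coe_hecke_smul]
  rfl

theorem coe_natCast_smul (n : ℕ) (x : GmMod p r S k) :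
    (((n : heckeRing p S) • x : GmMod p r S k) : JZero p) = n • (x : JZero p) := by
  rw [coe_hecke_smul]
  show ((n : Module.End ℤ (JZero p))) (x : JZero p) = n • (x : JZero p)
  rw [Module.End.natCast_apply]

/-- **`G_k` is `m`-primary.** -/
theorem nilPart_gm_eq_top :
    nilPart (gen r (etaGen p S)) (GmMod p r S k) = ⊤ := by
  refine eq_top_iff.2 fun x _ o => ?_
  cases o with
  | none =>
    refine ⟨k, Subtype.ext ?_⟩
    rw [gen_none, ← Nat.cast_pow, coe_natCast_smul]
    exact x.2.1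
  | some q =>
    obtain ⟨n, hn⟩ := x.2.2 q.1 q.2
    refine ⟨n, Subtype.ext ?_⟩
    exact (coe_pow_smul (etaGen p S q) n x).trans hn

end Module

end Fermat.Agent.MAZ.Gm5
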