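/-
Fermat/Agent/MAZ/Gm5/Finite.lean  (helper5)

Programme MAZ (S15): **`G_k = J₀(p)[r^k]_m` and `J₀(N)[n]` are finite**
(`ES/KUM/FiniteTorsion15.finite_setOf_nsmul_eq_zero`).
-/
import Mathlib
import Fermat.Agent.MAZ.Gm5.Stable
import Fermat.Agent.MAZ.Kum5.Abstract
import Fermat.Agent.MAZ.FlatCond42.System
import Fermat.Agent.ES.KUM.FiniteTorsion15

set_option autoImplicit false
set_option linter.unusedSectionVars false
set_option linter.style.haveILetI false

open ModularCurve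

namespace Fermat.Agent.MAZ.Gm5

open Fermat.Agent.Flat44 Fermat.Agent.MAZ.SelCoh42 Fermat.Agent.MAZ.FlatCond42

/-- `G_k` is finite. -/
theorem finite_gm (p : ℕ) [NeZero p] (r : ℕ) (hr : 0 < r) (S : Finset ℕ) (k : ℕ) :
    Finite (GmMod p r S k) := by
  haveI : NeZero (r ^ k) := ⟨(pow_pos hr k).ne'⟩
  have hfin := Fermat.Agent.ES.KUM.FiniteTorsion15.finite_setOf_nsmul_eq_zero p (r ^ k)
  haveI : Finite {y : JZero p | r ^ k • y = 0} := hfin.to_subtype
  exact Finite.of_injective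
    (fun x : GmMod p r S k => (⟨x.1, x.2.1⟩ : {y : JZero p | r ^ k • y = 0}))
    (fun x y h => Subtype.ext (by have h' := congrArg Subtype.val h; exact h'))

/-- The `n`-torsion of `JZero N` is finite (as the `Γ`-module `(Kum5.tors (JZero N) n).W`). -/
theorem finite_tors (N : ℕ) [NeZero N] (n : ℕ) (hn : 0 < n) :
    Finite (Kum5.tors (Γ := GQ) (JZero N) n).W := by
  haveI : NeZero n := ⟨hn.ne'⟩
  exact (Fermat.Agent.ES.KUM.FiniteTorsion15.finite_setOf_nsmul_eq_zero N n).to_subtype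

end Fermat.Agent.MAZ.Gm5
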