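/-
Fermat/Agent/MAZ/Gm5/Smooth.lean  (helper5)

Programme MAZ (S15): **`J₀(N)(ℚ̄)` is a smooth `G_ℚ`-module** for the level basis `galLevel`
(every point has an open stabiliser: `ES/GAL/OpenStab12.hasLevel_pic0`), hence so is
`G_k = J₀(p)[r^k]_m`.  This is the hypothesis `hsm` of `FinAbs19.eisenstein_fin_of_kummer`,
`FlatCond42.KumSel` and `Kum5.kum`.
-/
import Mathlib
import Fermat.Agent.MAZ.Gm5.Stable
import Fermat.Agent.MAZ.FlatCond42.System
import Fermat.Agent.ES.GAL.OpenStab12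

set_option autoImplicit false
set_option linter.unusedSectionVars false

open ModularCurve

namespace Fermat.Agent.MAZ.Gm5

open Fermat.Agent.Flat44 Fermat.Agent.MAZ.SelCoh42 Fermat.Agent.MAZ.FlatCond42

/-- `JZero N` is a smooth `Γ`-module: every point has an open stabiliser. -/
theorem isSmooth_jzero (N : ℕ) [NeZero N] : IsSmooth galLevel (JZero N) := by
  intro y
  obtain ⟨L, hL, h⟩ := Fermat.Agent.ES.GAL.OpenStab12.hasLevel_pic0 N y
  refine ⟨L.fixingSubgroup, ⟨L, hL, rfl⟩, fun σ hσ => ?_⟩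
  exact h σ fun a ha => (IntermediateField.mem_fixingSubgroup_iff _ _).1 hσ a ha

/-- `G_k` is smooth. -/
theorem isSmooth_gm (p : ℕ) [NeZero p] (r : ℕ) (S : Finset ℕ) (k : ℕ) :
    IsSmooth galLevel (GmMod p r S k) :=
  (gmStable p r S k).isSmooth_sub galLevel (isSmooth_jzero p)

end Fermat.Agent.MAZ.Gm5
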