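/-
Fermat/Agent/MAZ/Gm5/KumJ.lean  (helper5)

Programme MAZ (S15), brick K-DEF, concrete instance: **the Kummer map of `J₀(N)`**.

* `jzero_divisible_pow` : the hypothesis `hdiv` of `FinAbs19.eisenstein_fin_of_kummer`
  (`∀ k x, ∃ y, r ^ k • y = x`), from `MW/DivFinal5.jzero_divisible`;
* `kumJ N n` : `J₀(N)(ℚ) →+ H¹(G_ℚ, J₀(N)[n])`, `:= Kum5.kum galLevel _ (isSmooth_jzero N)`;
* `kumJ_eq_zero_iff` : its kernel is `n • J₀(N)(ℚ)`.
-/
import Mathlib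
import Fermat.Agent.MAZ.Gm5.Smooth
import Fermat.Agent.MAZ.Kum5.Abstract
import Fermat.Agent.MW.DivFinal5

set_option autoImplicit false
set_option linter.unusedSectionVars false

open ModularCurve

namespace Fermat.Agent.MAZ.Gm5

open Fermat.Agent.Flat44 Fermat.Agent.MAZ.SelCoh42 Fermat.Agent.MAZ.FlatCond42

/-- `J₀(N)(ℚ̄)` is divisible by `r ^ k` (`r > 0`). -/
theorem jzero_divisible_pow (N : ℕ) [NeZero N] (r : ℕ) (hr : 0 < r) :
    ∀ k : ℕ, ∀ x : JZero N, ∃ y : JZero N, r ^ k • y = x :=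
  fun k x => Fermat.Agent.MW.DivFinal5.jzero_divisible N (r ^ k) (pow_pos hr k).ne' x

/-- **The Kummer map of `J₀(N)`** at `n`: `J₀(N)(ℚ) → H¹(G_ℚ, J₀(N)[n])`. -/
noncomputable def kumJ (N : ℕ) [NeZero N] (n : ℕ) (hn : n ≠ 0) :
    Inv (⊤ : Subgroup GQ) (JZero N) →+ H1 galLevel (Kum5.tors (Γ := GQ) (JZero N) n).W :=
  Kum5.kum galLevel (Fermat.Agent.MW.DivFinal5.jzero_divisible N n hn) (isSmooth_jzero N)

theorem kumJ_eq_zero_iff (N : ℕ) [NeZero N] (n : ℕ) (hn : n ≠ 0)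
    (x : Inv (⊤ : Subgroup GQ) (JZero N)) :
    kumJ N n hn x = 0 ↔ ∃ y : JZero N, (∀ g : GQ, g • y = y) ∧ n • y = x.1 :=
  Kum5.kum_eq_zero_iff galLevel _ _ x

end Fermat.Agent.MAZ.Gm5
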